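import Mathlib

set_option autoImplicit false

/-!
# Countable fields of characteristic zero embed into `ℂ` (S27, package F5)
-/

namespace Fermat.Agent.S27.H9674

open Cardinal MvPolynomial

/-- Every transcendence basis of `ℂ` over `ℚ` is infinite. -/
theorem infinite_transcendenceBasis_complex {T : Set ℂ}
    (hT : IsTranscendenceBasis ℚ ((↑) : T → ℂ)) : Infinite T := by
  by_contra hfin
  rw [not_infinite_iff_finite] at hfin
  have h1 : #ℂ ≤ max (max #ℚ #T) ℵ₀ :=
    IsAlgClosed.cardinal_le_max_transcendence_basis' (v' := ((↑) : T → ℂ)) hT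
  have h2 : #T ≤ ℵ₀ := (Cardinal.lt_aleph0_of_finite T).le
  have h3 : #ℚ ≤ ℵ₀ := Cardinal.mk_le_aleph0
  have h4 : #ℂ ≤ ℵ₀ := h1.trans (max_le (max_le h3 h2) le_rfl)
  rw [Cardinal.mk_complex] at h4
  exact absurd h4 (not_le.mpr Cardinal.aleph0_lt_continuum)

/-- A countable field of characteristic zero admits a ring homomorphism (necessarily injective)
into `ℂ`. -/
theorem exists_ringHom_complex (k : Type*) [Field k] [CharZero k] [Countable k] :
    Nonempty (k →+* ℂ) := by
  classical
  obtain ⟨s, hs⟩ := exists_isTranscendenceBasis ℚ k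
  obtain ⟨T, hT⟩ := exists_isTranscendenceBasis ℚ ℂ
  have : Infinite T := infinite_transcendenceBasis_complex hT
  obtain ⟨g, hg⟩ := exists_injective_nat s
  let f : s → T := fun i => Infinite.natEmbedding T (g i)
  have hf : Function.Injective f := (Infinite.natEmbedding T).injective.comp hg
  let w : s → ℂ := fun i => (f i : ℂ)
  have hw : AlgebraicIndependent ℚ w := hT.1.comp f hf
  let R := Algebra.adjoin ℚ (Set.range ((↑) : s → k))
  let e0 : MvPolynomial s ℚ ≃ₐ[ℚ] R := hs.1.aevalEquiv
  let φ : R →+* ℂ := (aeval w : MvPolynomial s ℚ →ₐ[ℚ] ℂ).toRingHom.comp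
    e0.symm.toRingEquiv.toRingHom
  have hφ : Function.Injective φ := by
    have h1 : Function.Injective (aeval w : MvPolynomial s ℚ →ₐ[ℚ] ℂ) := hw
    exact h1.comp e0.symm.injective
  let _ : Algebra R ℂ := φ.toAlgebra
  have : FaithfulSMul R ℂ := (faithfulSMul_iff_algebraMap_injective R ℂ).mpr hφ
  have : Algebra.IsAlgebraic R k := hs.isAlgebraic
  exact ⟨(IsAlgClosed.lift : k →ₐ[R] ℂ).toRingHom⟩

end Fermat.Agent.S27.H9674
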