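import Mathlib

set_option autoImplicit false

/-!
# Tensor products of domains over an algebraically closed field (S27, package F5)

* `exists_algHom_apply_ne_zero`: a finitely generated domain `B` over an algebraically closed
  field `k` has, for every `c ≠ 0`, a `k`-point `φ : B →ₐ[k] k` with `φ c ≠ 0` (Nullstellensatz).
* `isDomain_tensorProduct`: if `k` is algebraically closed and `A`, `B` are `k`-algebras that are
  domains, then `A ⊗[k] B` is a domain.
-/

namespace Fermat.Agent.S27.H9674

open TensorProduct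

section points

variable {k B : Type*} [Field k] [IsAlgClosed k] [CommRing B] [IsDomain B] [Algebra k B]
  [Algebra.FiniteType k B]

/-- Weak Nullstellensatz with a non-vanishing condition. -/
theorem exists_algHom_apply_ne_zero {c : B} (hc : c ≠ 0) : ∃ φ : B →ₐ[k] k, φ c ≠ 0 := by
  let B1 := Localization.Away c
  have hfp1 : Algebra.FinitePresentation B B1 := IsLocalization.Away.finitePresentation c
  have hft1 : Algebra.FiniteType B B1 := inferInstance
  have hft : Algebra.FiniteType k B1 := Algebra.FiniteType.trans ‹_› hft1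
  have hnt : Nontrivial B1 := by
    have hinj : Function.Injective (algebraMap B B1) :=
      IsLocalization.injective B1 (powers_le_nonZeroDivisors_of_noZeroDivisors hc)
    exact hinj.nontrivial
  obtain ⟨m, hm⟩ := Ideal.exists_maximal B1
  let L := B1 ⧸ m
  let _ : Field L := Ideal.Quotient.field m
  have hftL : Algebra.FiniteType k L :=
    Algebra.FiniteType.of_surjective (Ideal.Quotient.mkₐ k m) (Ideal.Quotient.mkₐ_surjective k m)
  have hfin : Module.Finite k L := finite_of_finite_type_of_isJacobsonRing k L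
  have hint : Algebra.IsIntegral k L := Algebra.IsIntegral.of_finite k L
  have hbij : Function.Bijective (algebraMap k L) :=
    IsAlgClosed.algebraMap_bijective_of_isIntegral
  let e : k ≃ₐ[k] L := AlgEquiv.ofBijective (Algebra.ofId k L) hbij
  let ψ : B →ₐ[k] L := (Ideal.Quotient.mkₐ k m).comp (IsScalarTower.toAlgHom k B B1)
  refine ⟨(e.symm : L →ₐ[k] k).comp ψ, ?_⟩
  intro h0
  have h1 : ψ c = 0 := by
    have : e.symm (ψ c) = 0 := h0
    simpa using this
  have h2 : algebraMap B B1 c ∈ m := Ideal.Quotient.eq_zero_iff_mem.mp h1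
  have h3 : IsUnit (algebraMap B B1 c) := IsLocalization.Away.algebraMap_isUnit c
  exact hm.ne_top (Ideal.eq_top_of_isUnit_mem m h2 h3)

end points

section tensor

variable (k A B : Type*) [Field k] [IsAlgClosed k] [CommRing A] [CommRing B] [Algebra k A]
  [Algebra k B] [IsDomain A] [IsDomain B]

/-- Key step: no zero divisors when the right factor is finitely generated. -/
theorem mul_eq_zero_of_finiteType [Algebra.FiniteType k B] {z z' : A ⊗[k] B} (h : z * z' = 0) :
    z = 0 ∨ z' = 0 := by
  classical
  by_contra hne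
  rw [not_or] at hne
  let 𝒜 := Module.Basis.ofVectorSpace k A
  let E := TensorProduct.equivFinsuppOfBasisLeft (N := B) 𝒜
  have hb : E z ≠ 0 := fun h0 => hne.1 (by simpa using congrArg E.symm h0)
  have hb' : E z' ≠ 0 := fun h0 => hne.2 (by simpa using congrArg E.symm h0)
  obtain ⟨i0, hi0⟩ := Finsupp.ne_iff.mp hb
  obtain ⟨j0, hj0⟩ := Finsupp.ne_iff.mp hb'
  simp only [Finsupp.coe_zero, Pi.zero_apply] at hi0 hj0
  obtain ⟨φ, hφ⟩ := exists_algHom_apply_ne_zero (k := k) (mul_ne_zero hi0 hj0)
  let Ψ : A ⊗[k] B →ₐ[k] A :=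
    Algebra.TensorProduct.lift (AlgHom.id k A) ((Algebra.ofId k A).comp φ) (fun _ _ => Commute.all _ _)
  have hΨ : ∀ w : A ⊗[k] B, Ψ w = 0 → ∀ i, φ (E w i) = 0 := by
    intro w hw
    have hsum : w = (E w).sum fun i m => 𝒜 i ⊗ₜ[k] m := by
      rw [← TensorProduct.equivFinsuppOfBasisLeft_symm_apply]
      exact (E.symm_apply_apply w).symm
    have h2 : Ψ w = (E w).sum fun i m => φ m • 𝒜 i := by
      conv_lhs => rw [hsum]
      rw [Finsupp.sum, map_sum]
      refine Finset.sum_congr rfl fun i _ => ?_
      show (Algebra.TensorProduct.lift (AlgHom.id k A) ((Algebra.ofId k A).comp φ)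
        (fun _ _ => Commute.all _ _)) (𝒜 i ⊗ₜ[k] (E w) i) = _
      rw [Algebra.TensorProduct.lift_tmul]
      simp [Algebra.ofId_apply, Algebra.smul_def, mul_comm]
    rw [h2] at hw
    have hli := 𝒜.linearIndependent
    have h3 : (Finsupp.linearCombination k 𝒜) ((E w).mapRange φ (map_zero φ)) = 0 := by
      rw [Finsupp.linearCombination_apply, Finsupp.sum_mapRange_index (by simp)]
      exact hw
    have h4 : (E w).mapRange φ (map_zero φ) = 0 := by
      have := hli
      rw [linearIndependent_iff] at this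
      exact this _ h3
    intro i
    have := congrArg (fun f => f i) h4
    simpa using this
  have h5 : Ψ z * Ψ z' = 0 := by rw [← map_mul, h, map_zero]
  rcases mul_eq_zero.mp h5 with h6 | h6
  · exact hφ (by rw [map_mul, hΨ z h6 i0, zero_mul])
  · exact hφ (by rw [map_mul, hΨ z' h6 j0, mul_zero])

omit [IsAlgClosed k] [IsDomain A] [IsDomain B] in
/-- Every element of `A ⊗[k] B` comes from `A ⊗[k] B₀` for a finitely generated subalgebra `B₀`,
and two elements come from a common one. -/
theorem exists_fg_subalgebra_range (z z' : A ⊗[k] B) :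
    ∃ B₀ : Subalgebra k B, B₀.FG ∧
      z ∈ (Algebra.TensorProduct.map (AlgHom.id k A) B₀.val).range ∧
      z' ∈ (Algebra.TensorProduct.map (AlgHom.id k A) B₀.val).range := by
  classical
  have key : ∀ w : A ⊗[k] B, ∃ s : Finset B, ∀ B₀ : Subalgebra k B, (s : Set B) ⊆ B₀ →
      w ∈ (Algebra.TensorProduct.map (AlgHom.id k A) B₀.val).range := by
    intro w
    induction w using TensorProduct.induction_on with
    | zero => exact ⟨∅, fun B₀ _ => zero_mem _⟩
    | tmul a b =>
      refine ⟨{b}, fun B₀ hB₀ => ⟨a ⊗ₜ[k] ⟨b, hB₀ (by simp)⟩, by simp⟩⟩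
    | add x y hx hy =>
      obtain ⟨s, hs⟩ := hx
      obtain ⟨t, ht⟩ := hy
      refine ⟨s ∪ t, fun B₀ hB₀ => add_mem (hs B₀ ?_) (ht B₀ ?_)⟩
      · exact fun x hx => hB₀ (by simp [Finset.mem_coe.mp hx])
      · exact fun x hx => hB₀ (by simp [Finset.mem_coe.mp hx])
  obtain ⟨s, hs⟩ := key z
  obtain ⟨t, ht⟩ := key z'
  refine ⟨Algebra.adjoin k ((s ∪ t : Finset B) : Set B), ⟨s ∪ t, rfl⟩, hs _ ?_, ht _ ?_⟩
  · exact fun x hx => Algebra.subset_adjoin (by simp [Finset.mem_coe.mp hx])
  · exact fun x hx => Algebra.subset_adjoin (by simp [Finset.mem_coe.mp hx])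

/-- **Tensor products of domains over an algebraically closed field are domains.** -/
theorem isDomain_tensorProduct : IsDomain (A ⊗[k] B) := by
  have hnt : Nontrivial (A ⊗[k] B) := inferInstance
  have hnzd : NoZeroDivisors (A ⊗[k] B) := by
    refine ⟨fun {z z'} h => ?_⟩
    obtain ⟨B₀, hfg, ⟨w, hw⟩, ⟨w', hw'⟩⟩ := exists_fg_subalgebra_range k A B z z'
    have hw2 : Algebra.TensorProduct.map (AlgHom.id k A) B₀.val w = z := hw
    have hw2' : Algebra.TensorProduct.map (AlgHom.id k A) B₀.val w' = z' := hw'
    have hft : Algebra.FiniteType k B₀ := (Subalgebra.fg_iff_finiteType B₀).mp hfg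
    have hinj : Function.Injective (Algebra.TensorProduct.map (AlgHom.id k A) B₀.val) := by
      have : Function.Injective (B₀.val.toLinearMap.lTensor A) :=
        Module.Flat.lTensor_preserves_injective_linearMap _ Subtype.val_injective
      exact this
    have h0 : w * w' = 0 := by
      apply hinj
      rw [map_mul, hw2, hw2', h, map_zero]
    rcases mul_eq_zero_of_finiteType k A B₀ h0 with h1 | h1
    · left; rw [← hw2, h1, map_zero]
    · right; rw [← hw2', h1, map_zero]
  exact NoZeroDivisors.to_isDomain _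

end tensor

end Fermat.Agent.S27.H9674
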